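/-
S12 <= S15 (chief helper9).  Shared definitions: the statement of S15 as a `Prop`, curves of Frey
shape over `ℤ`.  The three points of order two `T1 T2 T3` of the Frey curve are in `Line/Two.lean`
(helper69).
-/
import Mathlib
import Fermat.Prelude.Def_EllipticCurve_ZeroComponentAt
import Fermat.Prelude.Def_FLTPrelim_Ramification
import Fermat.Agent.S12.Line.Two

set_option autoImplicit false

open WeierstrassCurve WeierstrassCurve.Affine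

namespace Fermat.Agent.S12

open Fermat.Agent.S13 (EPt GQ)
open Fermat.Agent.S05.XOnly

local notation "Qbar" => AlgebraicClosure ℚ

/-- the statement of S15 (verbatim). -/
def S15Statement : Prop :=
  ∀ {p : ℕ} (_ : p.Prime) (_ : p ∉ ({2, 3, 5, 7, 13} : Finset ℕ))
    (W : WeierstrassCurve ℤ) (_ : W.Δ ≠ 0)
    (Q : ((W.map (Int.castRingHom ℚ))⁄(AlgebraicClosure ℚ)).Point)
    (_ : ∀ σ : AlgebraicClosure ℚ ≃ₐ[ℚ] AlgebraicClosure ℚ, σ • Q = Q)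
    (_ : addOrderOf Q = p)
    (_ : (2 : ℤ) ∣ W.Δ) (_ : ¬ (2 : ℤ) ∣ W.c₄)
    (_ : ∀ A : ValuationSubring (AlgebraicClosure ℚ), A.LiesOverPrime 2 →
      ¬ W.InZeroComponentAt A Q)
    (_ : (3 : ℤ) ∣ W.Δ) (_ : ¬ (3 : ℤ) ∣ W.c₄)
    (_ : ∀ A : ValuationSubring (AlgebraicClosure ℚ), A.LiesOverPrime 3 →
      ¬ W.InZeroComponentAt A Q)
    {ℓ : ℕ} (_ : ℓ.Prime) (_ : ℓ ≠ p) (_ : (ℓ : ℤ) ∣ W.Δ) (_ : ¬ (ℓ : ℤ) ∣ W.c₄)
    (A : ValuationSubring (AlgebraicClosure ℚ)) (_ : A.LiesOverPrime ℓ),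
    ¬ W.InZeroComponentAt A Q

/-- the curve `Y² + XY = X³ + (B - 1 - A)/4 X² - AB/16 X` of Frey shape. -/
def frW (A B : ℤ) : WeierstrassCurve ℤ := ⟨1, (B - 1 - A) / 4, 0, -A * B / 16, 0⟩

/-- the Frey curve over `ℚ̄`; `EPt P = (W0 P).toAffine.Point`. -/
noncomputable abbrev W0 (P : FreyPackage) : WeierstrassCurve Qbar := P.freyCurve⁄Qbar

variable (P : FreyPackage)

theorem xc_T1_ne_xc_T2 : xc (T1 P) ≠ xc (T2 P) := by
  rw [xc_T1, xc_T2]; exact (div_ne_zero (cA_ne_zero P) (by norm_num)).symm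

theorem xc_T1_ne_xc_T3 : xc (T1 P) ≠ xc (T3 P) := by
  rw [xc_T1, xc_T3]; exact (div_ne_zero (neg_ne_zero.2 (cB_ne_zero P)) (by norm_num)).symm

theorem xc_T2_ne_xc_T3 : xc (T2 P) ≠ xc (T3 P) := by
  rw [xc_T2, xc_T3]
  intro h
  apply cC_ne_zero P
  rw [← cA_add_cB]
  linear_combination 4 * h

end Fermat.Agent.S12
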