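import Fermat.Agent.S12.Defs
import Fermat.Agent.S12.Line.Basic

/-!
# S12 ⇐ S15 : the quotient datum consumed by TOP / LOC  (architect helper12)

* `shape α₂ α₄`  : the integral curve `y² + xy = x³ + α₂ x² + α₄ x` (`frW A B` is of this form);
* `QD P C`       : an integral model of shape `shape α₂ α₄` of the quotient of the Frey curve by the
  line `C`, with the quotient homomorphism `φ` on `ℚ̄`-points, Galois equivariant, and the
  *norm formula*  `(x(φ T) - x(φ T₀)) ∏_{K ∈ C∖0} (x(K) - x(T₀)) = ∏_{K ∈ C} (x(T + K) - x(T₀))`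
  for every point `T₀` of order two.
-/

set_option autoImplicit false

open WeierstrassCurve WeierstrassCurve.Affine WeierstrassCurve.Affine.Point

namespace Fermat.Agent.S12

open Fermat.Agent.S13 (EPt Vp GQ M0)
open Fermat.Agent.S05.XOnly (xc yc)

local notation "Qbar" => AlgebraicClosure ℚ

/-- the `ℚ̄`-points of an integral Weierstrass curve -/
abbrev WPt (W : WeierstrassCurve ℤ) : Type := ((W.map (Int.castRingHom ℚ))⁄Qbar).Point

/-- the integral curve `y² + xy = x³ + α₂ x² + α₄ x` -/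
def shape (α₂ α₄ : ℤ) : WeierstrassCurve ℤ := ⟨1, α₂, 0, α₄, 0⟩

/-- An integral model of the quotient of the Frey curve by the subgroup `C`. -/
structure QD (P : FreyPackage) (C : AddSubgroup (EPt P)) where
  /-- the coefficient `a₂` of the quotient -/
  α₂ : ℤ
  /-- the coefficient `a₄` of the quotient -/
  α₄ : ℤ
  hΔ : (shape α₂ α₄).Δ ≠ 0
  /-- the isogeny on `ℚ̄`-points -/
  φ : EPt P →+ WPt (shape α₂ α₄)
  ker : ∀ T : EPt P, φ T = 0 ↔ T ∈ C
  equivariant : ∀ (σ : GQ) (T : EPt P), φ (σ • T) = σ • φ T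
  origin : ∀ T₁ : EPt P, T₁ ≠ 0 → xc T₁ = 0 → xc (φ T₁) = 0
  norm : ∀ T₀ : EPt P, T₀ ≠ 0 → 2 • T₀ = 0 → ∀ T : EPt P, T ∉ C →
    (xc (φ T) - xc (φ T₀)) * ∏ K ∈ nz C, (xc K - xc T₀) =
      (xc T - xc T₀) * ∏ K ∈ nz C, (xc (T + K) - xc T₀)

end Fermat.Agent.S12
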